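import Fermat.Agent.S48.W1.LemmaV
import Fermat.Agent.S48.W0.Depletion
import Fermat.Prelude.Def_FormalHecke_Eigensystem
import Fermat.Prelude.Thm_UpperHalfPlane_eq_of_forall_qCoeff_eq

/-!
# S48 / W1 : the formal Hecke relations force the nebentypus

`f ∈ S_k(Γ₁(N))` with `a_{pn} + ε(p) p^(k-1) a_{n/p} = a_p a_n` for all `p ∤ N` satisfies
`⟨d⟩ f = ε(d) f` and `T_p f = a_p f`.
-/

set_option autoImplicit false

namespace Fermat.Agent.S48.W1

open UpperHalfPlane ModularForm Matrix.SpecialLinearGroup CongruenceSubgroup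
open Fermat.Agent.S48.H
open Fermat.Agent.S23 (Nice qe)
open scoped MatrixGroups Manifold

/-- The hypothesis of S48 in weight `k`. -/
def Rel {N : ℕ} (k : ℤ) (ε : DirichletCharacter ℂ N) (f : CuspForm (Gamma1 N) k) : Prop :=
  ∀ p : ℕ, p.Prime → ¬ p ∣ N → ∀ n : ℕ,
    ModularFormClass.qCoeff f (p * n) +
        ε (p : ZMod N) * (p : ℂ) ^ (k - 1) *
          (if p ∣ n then ModularFormClass.qCoeff f (n / p) else 0) =
      ModularFormClass.qCoeff f p * ModularFormClass.qCoeff f n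

theorem qCoeff_sub_smul {N : ℕ} {k : ℤ} (f g : CuspForm (Gamma1 N) k) (c : ℂ) (n : ℕ) :
    ModularFormClass.qCoeff (⇑(f - c • g)) n
      = ModularFormClass.qCoeff f n - c * ModularFormClass.qCoeff g n := by
  have h : f - c • g = f + (-c) • g := by
    ext τ
    simp [sub_eq_add_neg]
  rw [h, qCoeff_add, qCoeff_smul]
  ring

/-- `⟨p⟩ f = ε(p) f` for primes `p ∤ N` (Lemma V). -/
theorem diamond_prime {N : ℕ} [NeZero N] (k : ℤ) (ε : DirichletCharacter ℂ N)
    (f : CuspForm (Gamma1 N) k) (hT : Rel k ε f) {p : ℕ} (hp : p.Prime) (hpN : ¬ p ∣ N) :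
    diamond k (pUnit hp hpN) f = ε (p : ZMod N) • f := by
  have hh : ⇑(heckeT k hp hpN f - ModularFormClass.qCoeff f p • f)
      = ⇑(diamond k (pUnit hp hpN) f - ε (p : ZMod N) • f) ∣[k] heckeDiagMatrix p := by
    have h1 := nice (heckeT k hp hpN f - ModularFormClass.qCoeff f p • f)
    have h2 := nice_slash_diag (nice (diamond k (pUnit hp hpN) f - ε (p : ZMod N) • f)) k p
    refine UpperHalfPlane.eq_of_forall_qCoeff_eq h1.per h1.hol h1.bdd h2.per h2.hol h2.bdd
      fun n => ?_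
    rw [qCoeff_slash_diag (nice _) k hp.ne_zero, qCoeff_sub_smul, qCoeff_sub_smul, H.qCoeff_heckeT,
      ← hT p hp hpN n]
    split_ifs <;> ring
  have := lemmaV k hp hpN _ _ hh
  exact sub_eq_zero.mp this

/-- `⟨d⟩ f = ε(d) f` (Dirichlet's theorem on primes in arithmetic progressions). -/
theorem diamond_eq {N : ℕ} [NeZero N] (k : ℤ) (ε : DirichletCharacter ℂ N)
    (f : CuspForm (Gamma1 N) k) (hT : Rel k ε f) (d : (ZMod N)ˣ) :
    diamond k d f = ε (d : ZMod N) • f := by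
  obtain ⟨p, hpgt, hp, hpd⟩ := Nat.forall_exists_prime_gt_and_eq_mod d.isUnit N
  have hpN : ¬ p ∣ N := fun h =>
    absurd (Nat.le_of_dvd (Nat.pos_of_ne_zero (NeZero.ne N)) h) (not_le.mpr hpgt)
  have hd : pUnit hp hpN = d := Units.ext (by rw [coe_pUnit, hpd])
  rw [← hd, diamond_prime k ε f hT hp hpN, coe_pUnit]

/-- `T_p f = a_p f`. -/
theorem heckeT_eq {N : ℕ} [NeZero N] (k : ℤ) (ε : DirichletCharacter ℂ N)
    (f : CuspForm (Gamma1 N) k) (hT : Rel k ε f) {p : ℕ} (hp : p.Prime) (hpN : ¬ p ∣ N) :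
    heckeT k hp hpN f = ModularFormClass.qCoeff f p • f := by
  refine ext_qCoeff fun n => ?_
  rw [H.qCoeff_heckeT, diamond_prime k ε f hT hp hpN, qCoeff_smul, qCoeff_smul, ← hT p hp hpN n]
  split_ifs <;> ring

theorem changeLevel_natCast_of_coprime {N M : ℕ} (ε : DirichletCharacter ℂ N) (h : N ∣ M)
    {p : ℕ} (hp : p.Coprime M) :
    (ε.changeLevel h) (p : ZMod M) = ε (p : ZMod N) := by
  have h1 := DirichletCharacter.changeLevel_eq_cast_of_dvd ε h (ZMod.unitOfCoprime p hp)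
  rw [ZMod.coe_unitOfCoprime] at h1
  rw [h1, ZMod.cast_natCast h]

/-- The depleted form satisfies the relations for the character lifted to modulus `N ^ 3`. -/
theorem rel_depletion {N : ℕ} [NeZero N] (k : ℤ) (ε : DirichletCharacter ℂ N)
    (f : CuspForm (Gamma1 N) k) (hT : Rel k ε f) (f' : CuspForm (Gamma1 (N ^ 3)) k)
    (hf' : ∀ n : ℕ, ModularFormClass.qCoeff f' n
      = if n.Coprime N then ModularFormClass.qCoeff f n else 0) :
    Rel k (ε.changeLevel (Dvd.intro_left (N ^ 2) (by ring))) f' := by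
  intro p hp hpN3 n
  have hpN : ¬ p ∣ N := fun h => hpN3 (dvd_pow h (by norm_num))
  have hcop : p.Coprime N := (Nat.Prime.coprime_iff_not_dvd hp).mpr hpN
  have hcop3 : p.Coprime (N ^ 3) := (Nat.Prime.coprime_iff_not_dvd hp).mpr hpN3
  rw [changeLevel_natCast_of_coprime ε _ hcop3]
  have h1 : (p * n).Coprime N ↔ n.Coprime N := by
    rw [Nat.coprime_mul_iff_left]
    exact ⟨fun h => h.2, fun h => ⟨hcop, h⟩⟩
  have h2 : p ∣ n → ((n / p).Coprime N ↔ n.Coprime N) := by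
    rintro ⟨m, rfl⟩
    rw [Nat.mul_div_cancel_left _ hp.pos, Nat.coprime_mul_iff_left]
    exact ⟨fun h => ⟨hcop, h⟩, fun h => h.2⟩
  have key := hT p hp hpN n
  rw [hf' (p * n), hf' p, hf' n, if_pos hcop]
  by_cases hn : n.Coprime N
  · rw [if_pos (h1.mpr hn), if_pos hn, ← key]
    by_cases hpn : p ∣ n
    · rw [if_pos hpn, if_pos hpn, hf', if_pos ((h2 hpn).mpr hn)]
    · rw [if_neg hpn, if_neg hpn]
  · rw [if_neg (fun h => hn (h1.mp h)), if_neg hn]
    by_cases hpn : p ∣ n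
    · rw [if_pos hpn, hf', if_neg (fun h => hn ((h2 hpn).mp h))]
      simp
    · rw [if_neg hpn]
      simp

/-- **OUTPUT of W0 + W1** for the hypotheses of S48 (weight one). -/
theorem main (N : ℕ) [NeZero N] (ε : DirichletCharacter ℂ N) (f : CuspForm (Gamma1 N) 1)
    (hf₁ : ModularFormClass.qCoeff f 1 = 1)
    (hT : ∀ p : ℕ, p.Prime → ¬ p ∣ N → ∀ n : ℕ,
        ModularFormClass.qCoeff f (p * n) +
            ε (p : ZMod N) * (if p ∣ n then ModularFormClass.qCoeff f (n / p) else 0) =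
          ModularFormClass.qCoeff f p * ModularFormClass.qCoeff f n) :
    ∃ f' : CuspForm (Gamma1 (N ^ 3)) 1,
      (∀ n : ℕ, ModularFormClass.qCoeff f' n
        = if n.Coprime N then ModularFormClass.qCoeff f n else 0) ∧
      FormalHecke.IsEigensystem (fun ℓ => ε (ℓ : ZMod N)) (ModularFormClass.qCoeff f') ∧
      (∀ d : (ZMod (N ^ 3))ˣ, diamond 1 d f'
        = ε ((ZMod.unitsMap (Dvd.intro_left (N ^ 2) (by ring) : N ∣ N ^ 3) d : (ZMod N)ˣ) : ZMod N)
            • f') ∧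
      (∀ (p : ℕ) (hp : p.Prime) (hpN : ¬ p ∣ N ^ 3),
        heckeT 1 hp hpN f' = ModularFormClass.qCoeff f p • f') := by
  have hRel : Rel 1 ε f := by
    intro p hp hpN n
    have := hT p hp hpN n
    simpa using this
  obtain ⟨f', hf'⟩ := W0.exists_depletion N 1 f
  have hRel' := rel_depletion 1 ε f hRel f' hf'
  refine ⟨f', hf', ⟨?_, ?_⟩, ?_, ?_⟩
  · rw [hf' 1, if_pos (Nat.coprime_one_left N), hf₁]
  · intro ℓ hℓ n
    by_cases hℓN : ℓ ∣ N
    · have hnc : ¬ ℓ.Coprime N := fun h => (Nat.Prime.coprime_iff_not_dvd hℓ).mp h hℓN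
      have hnc2 : ¬ (ℓ * n).Coprime N := fun h => hnc (Nat.Coprime.coprime_mul_right h)
      have hε : ε (ℓ : ZMod N) = 0 := by
        apply MulChar.map_nonunit
        intro hu
        exact hnc ((ZMod.isUnit_iff_coprime ℓ N).mp hu)
      simp only [hε, zero_mul, add_zero]
      rw [hf' (ℓ * n), if_neg hnc2, hf' ℓ, if_neg hnc, zero_mul]
    · have hℓN3 : ¬ ℓ ∣ N ^ 3 := fun h => hℓN (hℓ.dvd_of_dvd_pow h)
      have hcop3 : ℓ.Coprime (N ^ 3) := (Nat.Prime.coprime_iff_not_dvd hℓ).mpr hℓN3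
      have := hRel' ℓ hℓ hℓN3 n
      rw [changeLevel_natCast_of_coprime ε _ hcop3] at this
      simpa using this
  · intro d
    rw [diamond_eq 1 _ f' hRel' d, DirichletCharacter.changeLevel_eq_cast_of_dvd]
    rfl
  · intro p hp hpN
    have hpN1 : ¬ p ∣ N := fun h => hpN (dvd_pow h (by norm_num))
    rw [heckeT_eq 1 _ f' hRel' hp hpN, hf' p, if_pos ((Nat.Prime.coprime_iff_not_dvd hp).mpr hpN1)]

end Fermat.Agent.S48.W1
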