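import Fermat.Agent.S48.H.Hecke

/-!
# S48 / W1 : Lemma V

If `g ∈ S_k(Γ₁(M))`, `p ∤ M` and `g(pτ)` is again in `S_k(Γ₁(M))`, then `g = 0`.

Proof.  Let `W = {g : g ∣ diag(p,1) ∈ S_k(Γ₁(M))}`.  `W` is stable under the diamond operators
(`diamond_slash_diag`).  If `g ∈ W`, `h = g ∣ diag`, then
`T_p h = U_p h + (⟨p⟩h) ∣ diag = p^(k-1) g + (⟨p⟩ h) ∣ diag`, so `⟨p⟩ h ∈ W`, hence `h ∈ W`.
By induction `g ∣ diag^m ∈ S_k(Γ₁(M))` for all `m`; its `q`-expansion starts at `q^(p^m)` at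
the earliest, so it vanishes for `p^m >` Sturm bound.
-/

set_option autoImplicit false

namespace Fermat.Agent.S48.W1

open UpperHalfPlane ModularForm Matrix.SpecialLinearGroup CongruenceSubgroup
open Fermat.Agent.S48.H
open Fermat.Agent.S23 (Nice qe)
open scoped MatrixGroups Manifold

/-- One step: if `h = g ∣ diag` is a cusp form on `Γ₁(M)` then so is `h ∣ diag`. -/
theorem step {M p : ℕ} [NeZero M] (k : ℤ) (hp : p.Prime) (hpM : ¬ p ∣ M)
    (g h : CuspForm (Gamma1 M) k) (hh : ⇑h = ⇑g ∣[k] heckeDiagMatrix p) :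
    ∃ h' : CuspForm (Gamma1 M) k, ⇑h' = ⇑h ∣[k] heckeDiagMatrix p := by
  set u : (ZMod M)ˣ := pUnit hp hpM with hu
  set g' := diamond k u⁻¹ g with hg'
  set h'' := diamond k u⁻¹ h with hh''
  have e1 : ⇑h'' = ⇑g' ∣[k] heckeDiagMatrix p := diamond_slash_diag k hp hpM u⁻¹ g h hh
  have e2 : diamond k u h'' = h := by
    rw [hh'', ← LinearMap.comp_apply, ← diamond_mul, mul_inv_cancel, diamond_one]
    rfl
  refine ⟨heckeT k hp hpM h'' - ((p : ℂ) ^ (k - 1)) • g', ?_⟩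
  rw [FunLike.coe_sub, FunLike.coe_smul, coe_heckeT, ← hu, e2, e1,
    heckeU_slash_diag (nice g') k hp.ne_zero]
  abel

/-- Iteration. -/
theorem iterate {M p : ℕ} [NeZero M] (k : ℤ) (hp : p.Prime) (hpM : ¬ p ∣ M)
    (g h : CuspForm (Gamma1 M) k) (hh : ⇑h = ⇑g ∣[k] heckeDiagMatrix p) (m : ℕ) :
    ∃ h' : CuspForm (Gamma1 M) k, ∀ n : ℕ, ModularFormClass.qCoeff h' n
      = if p ^ m ∣ n then ((p : ℂ) ^ (k - 1)) ^ m * ModularFormClass.qCoeff g (n / p ^ m)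
        else 0 := by
  suffices H : ∃ a b : CuspForm (Gamma1 M) k, ⇑b = ⇑a ∣[k] heckeDiagMatrix p ∧
      ∀ n : ℕ, ModularFormClass.qCoeff a n
        = if p ^ m ∣ n then ((p : ℂ) ^ (k - 1)) ^ m * ModularFormClass.qCoeff g (n / p ^ m)
          else 0 by
    obtain ⟨a, -, -, ha⟩ := H
    exact ⟨a, ha⟩
  induction m with
  | zero => exact ⟨g, h, hh, fun n => by simp⟩
  | succ m ih =>
    obtain ⟨a, b, hab, ha⟩ := ih
    obtain ⟨b', hb'⟩ := step k hp hpM a b hab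
    refine ⟨b, b', hb', fun n => ?_⟩
    rw [hab, qCoeff_slash_diag (nice a) k hp.ne_zero]
    by_cases hpn : p ∣ n
    · obtain ⟨n', rfl⟩ := hpn
      rw [if_pos (Dvd.intro _ rfl), Nat.mul_div_cancel_left _ hp.pos, ha]
      have hiff : p ^ (m + 1) ∣ p * n' ↔ p ^ m ∣ n' := by
        rw [pow_succ', Nat.mul_dvd_mul_iff_left hp.pos]
      by_cases hd : p ^ m ∣ n'
      · rw [if_pos hd, if_pos (hiff.mpr hd), pow_succ' p m, Nat.mul_div_mul_left _ _ hp.pos]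
        ring
      · rw [if_neg hd, if_neg (fun h => hd (hiff.mp h)), mul_zero]
    · rw [if_neg hpn, if_neg]
      intro hd
      exact hpn (dvd_trans (dvd_pow_self p (Nat.succ_ne_zero m)) hd)

/-- **Lemma V.** -/
theorem lemmaV {M p : ℕ} [NeZero M] (k : ℤ) (hp : p.Prime) (hpM : ¬ p ∣ M)
    (g h : CuspForm (Gamma1 M) k) (hh : ⇑h = ⇑g ∣[k] heckeDiagMatrix p) : g = 0 := by
  obtain ⟨B, hB⟩ := exists_sturm M k
  obtain ⟨h', hh'⟩ := iterate k hp hpM g h hh (B + 1)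
  have hlt : B < p ^ (B + 1) :=
    lt_trans (Nat.lt_succ_self B) (Nat.lt_pow_self hp.one_lt)
  have h0 : h' = 0 := by
    apply hB
    intro n hn
    rw [hh']
    split_ifs with hd
    · have hn0 : n = 0 := Nat.eq_zero_of_dvd_of_lt hd (lt_of_le_of_lt hn hlt)
      rw [hn0, Nat.zero_div, qCoeff_zero, mul_zero]
    · rfl
  have hp0 : ((p : ℂ) ^ (k - 1)) ^ (B + 1) ≠ 0 :=
    pow_ne_zero _ (zpow_ne_zero _ (by exact_mod_cast hp.ne_zero))
  apply ext_qCoeff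
  intro n
  have h1 := hh' (p ^ (B + 1) * n)
  rw [if_pos (Dvd.intro _ rfl), Nat.mul_div_cancel_left _ (pow_pos hp.pos _), h0] at h1
  have h2 : ∀ m : ℕ, ModularFormClass.qCoeff (⇑(0 : CuspForm (Gamma1 M) k)) m = 0 := by
    intro m
    have := qCoeff_smul (0 : ℂ) (0 : CuspForm (Gamma1 M) k) m
    rwa [zero_smul, zero_mul] at this
  rw [h2] at h1 ⊢
  exact (mul_eq_zero.mp h1.symm).resolve_left hp0

end Fermat.Agent.S48.W1
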